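import Fermat.Agent.Ribet.H103.AlgPSpec

/-!
# RIBET, wall at `p`, target S2 — leaf LABEL (helper604)

`label : Fermat.Agent.Ribet.H103.AlgP.LabelLeaf` (VERBATIM the frozen leaf of
`Ribet/H103/AlgPSpec.lean`): if `u` is wildly pure at `n` and `τ ζ = ζ ^ k`, then `τ u / u ^ k` is
locally factored (wild form, trivial label) at `n`.

Core: `locOne_tau_div_pow604` — if `v ∈ 1 + λ B_n`, `λ ∈ w R`, `τ λ = λ κ` with `κ ≡ k mod w`, and
`τ ≡ id mod w` on `B`, then `τ v / v ^ k ∈ 1 + λ w B_n`.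
-/

set_option autoImplicit false

namespace Fermat.Agent.Ribet.H604

open Fermat.Agent.A2 Fermat.Agent.A2.Alg Fermat.Agent.A2.Alg.H34 Fermat.Agent.Ribet.H103.AlgP

/-- The ring identity behind LABEL. -/
theorem core_identity604 {B : Type*} [CommRing B] (Λ W T a b e aτ bτ eτ cb ce κ s K : B) (k : ℕ)
    (hΛ : Λ = W * T) (haτ : aτ = bτ + Λ * κ * eτ)
    (hbτ : bτ = b + W * cb) (heτ : eτ = e + W * ce) (hκ : κ = k + W * s)
    (hpow : a ^ k = b ^ k + k * b ^ (k - 1) * (Λ * e) + K * (Λ * e) ^ 2)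
    (hk : (k : B) * b ^ k = k * b * b ^ (k - 1)) :
    aτ * b ^ k - bτ * a ^ k =
      Λ * W * (s * eτ * b ^ k + k * ce * b ^ k - k * cb * b ^ (k - 1) * e
        - bτ * K * T * e ^ 2) := by
  rw [hpow, haτ, hκ]
  have hΛ2 : Λ * Λ = Λ * W * T := by rw [hΛ]; ring
  linear_combination (Λ * e) * hk + (Λ * (k : B) * b ^ k) * heτ
    - ((k : B) * b ^ (k - 1) * Λ * e) * hbτ - (bτ * K * e ^ 2) * hΛ2

theorem natCast_mul_pow604 {B : Type*} [CommRing B] (b : B) (k : ℕ) :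
    (k : B) * b ^ k = k * b * b ^ (k - 1) := by
  rcases k with _ | k
  · simp
  · rw [Nat.add_sub_cancel, pow_succ]; ring

section Loc

variable {R F : Type*} [CommRing R] [Field F] [Algebra R F]

/-- **Core of LABEL.**  `v ∈ 1 + λ B_n`, `λ = w t`, `τ λ = λ κ`, `κ = k + w s`, `τ ≡ id mod w` on
`B`  ⟹  `τ v / v ^ k ∈ 1 + λ w B_n`. -/
theorem locOne_tau_div_pow604 (w : R) (B : Subalgebra R F) (τ : F ≃+* F) (τR : R ≃+* R)
    (hτalg : ∀ r : R, τ (algebraMap R F r) = algebraMap R F (τR r))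
    (hτB : ∀ b ∈ B, ∃ c ∈ B, τ b - b = algebraMap R F w * c)
    (n : Ideal B) (hn : n.IsPrime) (hwn : algebraMap R B w ∈ n)
    (lam t κ s : R) (k : ℕ) (hlam : lam = w * t) (hτlam : τR lam = lam * κ)
    (hκ : κ = k + w * s)
    (v : F) (hv : LocOne B n (Ideal.span {algebraMap R B lam}) v) :
    LocOne B n (Ideal.span {algebraMap R B (lam * w)}) (τ v * (v ^ k)⁻¹) := by
  obtain ⟨a, b, hb, hab, hvab⟩ := hv
  obtain ⟨e, he⟩ := Ideal.mem_span_singleton'.1 hab
  have ha : a = b + algebraMap R B lam * e := by rw [mul_comm, he]; ring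
  obtain ⟨aτ, ca, haτ, hca⟩ := exists_tau_eq w B τ hτB a
  obtain ⟨bτ, cb, hbτ, hcb⟩ := exists_tau_eq w B τ hτB b
  obtain ⟨eτ, ce, heτ, hce⟩ := exists_tau_eq w B τ hτB e
  have hlamn : algebraMap R B lam ∈ n := by
    rw [hlam, map_mul]
    exact n.mul_mem_right _ hwn
  have han : a ∉ n := by
    intro h
    apply hb
    have : b = a - algebraMap R B lam * e := by rw [ha]; ring
    rw [this]
    exact n.sub_mem h (n.mul_mem_right _ hlamn)
  have hbτn : bτ ∉ n := by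
    intro h
    apply hb
    have : b = bτ - algebraMap R B w * cb := by rw [← hcb]; ring
    rw [this]
    exact n.sub_mem h (n.mul_mem_right _ hwn)
  have hb0 : (b : F) ≠ 0 := by
    intro h
    apply hb
    have : b = 0 := Subtype.ext h
    rw [this]; exact n.zero_mem
  have ha0 : (a : F) ≠ 0 := by
    intro h
    apply han
    have : a = 0 := Subtype.ext h
    rw [this]; exact n.zero_mem
  have hbτ0 : (bτ : F) ≠ 0 := by
    rw [hbτ]; exact (map_ne_zero τ).2 hb0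
  -- the transformed relation
  have haτ' : aτ = bτ + algebraMap R B lam * algebraMap R B κ * eτ := by
    apply Subtype.ext
    push_cast
    rw [haτ, hbτ, heτ]
    have h1 : (a : F) = (b : F) + algebraMap R F lam * (e : F) := by
      have := congrArg (fun z : B => (z : F)) ha
      simpa using this
    rw [h1, map_add, map_mul, hτalg, hτlam, map_mul]
  obtain ⟨K, hK⟩ := Polynomial.powAddExpansion (b : B) (algebraMap R B lam * e) k
  rw [← ha] at hK
  have key := core_identity604 (algebraMap R B lam) (algebraMap R B w) (algebraMap R B t)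
    a b e aτ bτ eτ cb ce (algebraMap R B κ) (algebraMap R B s) K k
    (by rw [hlam, map_mul]) haτ' (by rw [← hcb]; ring) (by rw [← hce]; ring)
    (by rw [hκ, map_add, map_mul, map_natCast]) hK (natCast_mul_pow604 b k)
  refine ⟨aτ * b ^ k, bτ * a ^ k, ?_, ?_, ?_⟩
  · intro h
    rcases hn.mem_or_mem h with h | h
    · exact hbτn h
    · exact han (hn.mem_of_pow_mem k h)
  · rw [key, map_mul]
    exact Ideal.mul_mem_right _ _ (Ideal.mem_span_singleton_self _)
  · have hv' : v = (a : F) * (b : F)⁻¹ := by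
      field_simp
      exact hvab
    have hτv : τ v = (aτ : F) * (bτ : F)⁻¹ := by
      rw [hv', map_mul, map_inv₀, haτ, hbτ]
    push_cast
    rw [hτv, hv', mul_pow, inv_pow]
    field_simp

end Loc

section RFacts

variable {R : Type*} [CommRing R] [IsDomain R] [IsDiscreteValuationRing R]

/-- `ζ - 1` is divisible by the uniformiser. -/
theorem dvd_zeta_sub_one604 (p : ℕ) (hp : p.Prime)
    (hpR : (p : R) ∈ IsLocalRing.maximalIdeal R) (ζ : R) (hζ : ζ ^ p = 1)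
    (w : R) (hw : Irreducible w) : w ∣ ζ - 1 := by
  have hmem : ζ - 1 ∈ IsLocalRing.maximalIdeal R := by
    obtain ⟨r, hr⟩ := exists_add_pow_prime_eq hp (ζ - 1) 1
    have h1 : (ζ - 1) ^ p = -((p : R) * (ζ - 1) * r) := by
      have h2 : (ζ - 1 + 1) ^ p = 1 := by rw [sub_add_cancel, hζ]
      rw [h2] at hr
      linear_combination -hr
    have h3 : (ζ - 1) ^ p ∈ IsLocalRing.maximalIdeal R := by
      rw [h1]
      exact neg_mem (Ideal.mul_mem_right _ _ (Ideal.mul_mem_right _ _ hpR))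
    exact (inferInstance : (IsLocalRing.maximalIdeal R).IsPrime).mem_of_pow_mem p h3
  rw [hw.maximalIdeal_eq] at hmem
  exact Ideal.mem_span_singleton.1 hmem

omit [IsDomain R] [IsDiscreteValuationRing R] in
/-- `σ = ∑_{i<k} ζ^i ≡ k` modulo `ζ - 1`. -/
theorem geom_sum_sub_natCast604 (ζ : R) (k : ℕ) :
    ζ - 1 ∣ (∑ i ∈ Finset.range k, ζ ^ i) - k := by
  have : (∑ i ∈ Finset.range k, ζ ^ i) - k = ∑ i ∈ Finset.range k, (ζ ^ i - 1) := by
    rw [Finset.sum_sub_distrib]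
    simp
  rw [this]
  refine Finset.dvd_sum fun i _ => ?_
  simpa using sub_dvd_pow_sub_pow ζ 1 i

omit [IsDomain R] [IsDiscreteValuationRing R] in
/-- Fermat's little theorem in `R`. -/
theorem natCast_dvd_pow_sub604 (p : ℕ) (hp : p.Prime) (k : ℕ) :
    (p : R) ∣ (k : R) ^ p - k := by
  have : Fact p.Prime := ⟨hp⟩
  have h : (p : ℤ) ∣ (k : ℤ) ^ p - k := by
    rw [← ZMod.intCast_zmod_eq_zero_iff_dvd]
    push_cast
    rw [ZMod.pow_card, sub_self]
  obtain ⟨m, hm⟩ := h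
  refine ⟨(m : R), ?_⟩
  have := congrArg (fun z : ℤ => (z : R)) hm
  push_cast at this
  exact this

end RFacts

/-- **Leaf LABEL** of `Ribet/H103/AlgPSpec.lean`. -/
theorem label : LabelLeaf := by
  intro R E F _ _ _ _ _ _ _ _ _ _ _ _ _ p hp hpR ζ hζ w hw B c τ τE τR hτ k hk u hu n hn hwn hWP
  obtain ⟨g, hg0, hdeep, h1, h2⟩ := hWP
  -- `τ` on constants
  have hτalg : ∀ r : R, τ (algebraMap R F r) = algebraMap R F (τR r) := by
    intro r
    rw [IsScalarTower.algebraMap_apply R E F, hτ.hτE, hτ.hτR,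
      ← IsScalarTower.algebraMap_apply R E F]
  -- facts in `R`
  obtain ⟨t₁, ht₁⟩ := dvd_zeta_sub_one604 p hp hpR ζ hζ.pow_eq_one w hw
  set σ : R := ∑ i ∈ Finset.range k, ζ ^ i with hσ
  have hτlam : τR (ζ - 1) = (ζ - 1) * σ := by
    rw [map_sub, map_one, hk, hσ, mul_comm, geom_sum_mul]
  obtain ⟨r₁, hr₁⟩ := geom_sum_sub_natCast604 ζ k
  have hσk : σ = k + w * (t₁ * r₁) := by
    have : σ - k = (ζ - 1) * r₁ := hr₁
    rw [ht₁] at this
    linear_combination this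
  have hlamp : (ζ - 1) ^ p = w * (t₁ * (ζ - 1) ^ (p - 1)) := by
    have : (ζ - 1) ^ p = (ζ - 1) * (ζ - 1) ^ (p - 1) := by
      rw [← pow_succ', Nat.sub_add_cancel hp.one_le]
    rw [this]
    nth_rewrite 1 [ht₁]
    ring
  have hτlamp : τR ((ζ - 1) ^ p) = (ζ - 1) ^ p * σ ^ p := by
    rw [map_pow, hτlam, mul_pow]
  have hσpk : ∃ s₂ : R, σ ^ p = k + w * s₂ := by
    obtain ⟨x, hx⟩ := sub_dvd_pow_sub_pow σ (k : R) p
    obtain ⟨y, hy⟩ := natCast_dvd_pow_sub604 (R := R) p hp k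
    have hpw : w ∣ (p : R) := by
      have := hpR
      rw [hw.maximalIdeal_eq] at this
      exact Ideal.mem_span_singleton.1 this
    obtain ⟨z, hz⟩ := hpw
    refine ⟨t₁ * r₁ * x + z * y, ?_⟩
    have h3 : σ - k = w * (t₁ * r₁) := by rw [hσk]; ring
    rw [h3] at hx
    rw [hz] at hy
    linear_combination hx + hy
  obtain ⟨s₂, hs₂⟩ := hσpk
  have hw₁ : algebraMap R B w ∈ c.p₁ := by
    have : algebraMap R B w ∈ c.p₁ ⊓ c.p₂ := by
      rw [c.inf_eq]
      exact Ideal.mem_span_singleton_self _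
    exact this.1
  have hw₂ : algebraMap R B w ∈ c.p₂ := by
    have : algebraMap R B w ∈ c.p₁ ⊓ c.p₂ := by
      rw [c.inf_eq]
      exact Ideal.mem_span_singleton_self _
    exact this.2
  have hτg : τ g ≠ 0 := (map_ne_zero τ).2 hg0
  refine ⟨τ g * (g ^ k)⁻¹, mul_ne_zero hτg (inv_ne_zero (pow_ne_zero k hg0)), ?_, ?_, ?_⟩
  · have key : τ u * (u ^ k)⁻¹ * (τ g * (g ^ k)⁻¹) ^ p =
        τ (u * g ^ p) * ((u * g ^ p) ^ k)⁻¹ := by
      rw [map_mul, map_pow, mul_pow, mul_pow, inv_pow, mul_inv, ← pow_mul, ← pow_mul,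
        mul_comm k p]
      ring
    unfold DeepAt
    rw [key]
    exact locOne_tau_div_pow604 w B τ τR hτalg hτ.hτB n hn hwn ((ζ - 1) ^ p)
      (t₁ * (ζ - 1) ^ (p - 1)) (σ ^ p) s₂ k hlamp hτlamp hs₂ (u * g ^ p) hdeep
  · intro hle
    exact locOne_tau_div_pow604 w B τ τR hτalg hτ.hτB c.p₁ c.prime₁ hw₁ (ζ - 1)
      t₁ σ (t₁ * r₁) k ht₁ hτlam hσk g (h1 hle)
  · intro hle
    exact locOne_tau_div_pow604 w B τ τR hτalg hτ.hτB c.p₂ c.prime₂ hw₂ (ζ - 1)
      t₁ σ (t₁ * r₁) k ht₁ hτlam hσk g (h2 hle)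

end Fermat.Agent.Ribet.H604
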